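/-
Project PT (Poitou–Tate campaign for S55, captain helper55) — CORE INTERFACE FILE.
Definitions and statements only.  See NOTES/S55-plan.md and NOTES/PT-F.md.

* `Tower G`            : a system of finite-index subgroups ("open subgroups") of an abstract group.
* `IsLevel₁/₂`         : level-constant cochains (mirror of the prelude's `IsLevelConstantS₁/₂`).
* `levH1`, `levH2`     : level cohomology (mirror of `continuousH1S`, `continuousH2S`).
* `semilocal`          : the level-coinduced module `J = ∏_v coInd_{G_v}^{G} J_v`.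
* `PTDatum`            : the abstract "p-class formation with local data" (all the arithmetic input).
* `shaOne`, `shaTwo`   : the abstract Tate–Shafarevich groups.
* `StmtPTF`            : the abstract Poitou–Tate theorem (target of PT-F).
-/
import Mathlib
import Fermat.Prelude.Def_GroupCohomology_PoitouTate
import Fermat.Prelude.Def_GroupCohomology_ContinuousH2Map
import Fermat.Agent.PT.A.Plan2

set_option autoImplicit false

noncomputable section

namespace Fermat.Agent.PT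

open CategoryTheory groupCohomology

/-! ### Towers and level-constant cochains -/

/-- A tower of finite-index subgroups of `G`, stable under finite intersections, in which every
member contains a normal member.  (Think: the open subgroups `Gal(ℚ̄/F)`, `F` in a family of finite
extensions stable under composita and normal closures.) -/
structure Tower (G : Type) [Group G] where
  /-- the members of the tower -/
  lev : Set (Subgroup G)
  top_mem : ⊤ ∈ lev
  inf_mem : ∀ U V : Subgroup G, U ∈ lev → V ∈ lev → U ⊓ V ∈ lev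
  finiteIndex : ∀ U ∈ lev, U.FiniteIndex
  exists_normal : ∀ U ∈ lev, ∃ V ∈ lev, V ≤ U ∧ V.Normal

section Level

variable {G : Type} [Group G] (𝒯 : Tower G)

/-- `f : G → X` is right-invariant under some member of the tower. -/
def IsLevel₁ {X : Type*} (f : G → X) : Prop :=
  ∃ U ∈ 𝒯.lev, ∀ g s : G, s ∈ U → f (g * s) = f g

/-- `f : G × G → X` is right-invariant (in both variables) under some member of the tower. -/
def IsLevel₂ {X : Type*} (f : G × G → X) : Prop :=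
  ∃ U ∈ 𝒯.lev, ∀ g g' s s' : G, s ∈ U → s' ∈ U → f (g * s, g' * s') = f (g, g')

variable {𝒯}

lemma IsLevel₁.add {X : Type*} [Add X] {f f' : G → X} (hf : IsLevel₁ 𝒯 f) (hf' : IsLevel₁ 𝒯 f') :
    IsLevel₁ 𝒯 (f + f') := by
  obtain ⟨U, hU, h⟩ := hf
  obtain ⟨U', hU', h'⟩ := hf'
  refine ⟨U ⊓ U', 𝒯.inf_mem U U' hU hU', fun g s hs => ?_⟩
  simp only [Pi.add_apply]
  rw [h g s hs.1, h' g s hs.2]

lemma IsLevel₂.add {X : Type*} [Add X] {f f' : G × G → X} (hf : IsLevel₂ 𝒯 f)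
    (hf' : IsLevel₂ 𝒯 f') : IsLevel₂ 𝒯 (f + f') := by
  obtain ⟨U, hU, h⟩ := hf
  obtain ⟨U', hU', h'⟩ := hf'
  refine ⟨U ⊓ U', 𝒯.inf_mem U U' hU hU', fun g g' s s' hs hs' => ?_⟩
  simp only [Pi.add_apply]
  rw [h g g' s s' hs.1 hs'.1, h' g g' s s' hs.2 hs'.2]

variable (𝒯) in
lemma isLevel₁_const {X : Type*} (x : X) : IsLevel₁ 𝒯 (fun _ : G => x) :=
  ⟨⊤, 𝒯.top_mem, fun _ _ _ => rfl⟩

variable (𝒯) in
lemma isLevel₂_const {X : Type*} (x : X) : IsLevel₂ 𝒯 (fun _ : G × G => x) :=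
  ⟨⊤, 𝒯.top_mem, fun _ _ _ _ _ _ => rfl⟩

lemma IsLevel₁.comp {X Y : Type*} {f : G → X} (hf : IsLevel₁ 𝒯 f) (φ : X → Y) :
    IsLevel₁ 𝒯 (φ ∘ f) := by
  obtain ⟨U, hU, h⟩ := hf
  exact ⟨U, hU, fun g s hs => by simp only [Function.comp_apply, h g s hs]⟩

lemma IsLevel₂.comp {X Y : Type*} {f : G × G → X} (hf : IsLevel₂ 𝒯 f) (φ : X → Y) :
    IsLevel₂ 𝒯 (φ ∘ f) := by
  obtain ⟨U, hU, h⟩ := hf
  exact ⟨U, hU, fun g g' s s' hs hs' => by simp only [Function.comp_apply, h g g' s s' hs hs']⟩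

/-- Right translation preserves level-constancy. -/
lemma IsLevel₁.rightTranslate {X : Type*} {f : G → X} (hf : IsLevel₁ 𝒯 f) (σ : G) :
    IsLevel₁ 𝒯 (fun g => f (g * σ)) := by
  obtain ⟨U, hU, h⟩ := hf
  obtain ⟨V, hV, hVU, hVn⟩ := 𝒯.exists_normal U hU
  refine ⟨V, hV, fun g s hs => ?_⟩
  have h1 : g * s * σ = g * σ * (σ⁻¹ * s * σ) := by group
  show f (g * s * σ) = f (g * σ)
  rw [h1]
  exact h (g * σ) _ (hVU (by simpa using hVn.conj_mem s hs σ⁻¹))

end Level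

section LevelCohomology

variable {k : Type} [CommRing k] {G : Type} [Group G] (𝒯 : Tower G) (M : Rep.{0} k G)

/-- level 1-cochains -/
def levCochains₁ : Submodule k (G → M) where
  carrier := {f | IsLevel₁ 𝒯 f}
  add_mem' hf hf' := hf.add hf'
  zero_mem' := isLevel₁_const 𝒯 (0 : M)
  smul_mem' c _ hf := hf.comp (c • ·)

/-- level 2-cochains -/
def levCochains₂ : Submodule k (G × G → M) where
  carrier := {f | IsLevel₂ 𝒯 f}
  add_mem' hf hf' := hf.add hf'
  zero_mem' := isLevel₂_const 𝒯 (0 : M)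
  smul_mem' c _ hf := hf.comp (c • ·)

lemma mem_levCochains₁_iff (f : G → M) : f ∈ levCochains₁ 𝒯 M ↔ IsLevel₁ 𝒯 f := Iff.rfl

lemma mem_levCochains₂_iff (f : G × G → M) : f ∈ levCochains₂ 𝒯 M ↔ IsLevel₂ 𝒯 f := Iff.rfl

/-- level 1-cocycles -/
def levCocycles₁ : Submodule k (cocycles₁ M) :=
  (levCochains₁ 𝒯 M).comap (cocycles₁ M).subtype

/-- `H¹_lev(G, M) ⊆ H¹(G, M)`: the classes of level-constant 1-cocycles
(mirror of the prelude's `continuousH1S`). -/
def levH1 : Submodule k (H1 M) :=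
  (levCocycles₁ 𝒯 M).map (H1π M).hom

lemma mem_levH1_iff (x : H1 M) :
    x ∈ levH1 𝒯 M ↔ ∃ c : cocycles₁ M, IsLevel₁ 𝒯 c ∧ (H1π M).hom c = x := by
  simp only [levH1, Submodule.mem_map, levCocycles₁, Submodule.mem_comap]; rfl

/-- level 2-cocycles -/
def levCocycles₂ : Submodule k (G × G → M) :=
  cocycles₂ M ⊓ levCochains₂ 𝒯 M

/-- level 2-coboundaries: `d` of level 1-cochains -/
def levCoboundaries₂ : Submodule k (G × G → M) :=
  (levCochains₁ 𝒯 M).map (d₁₂ M).hom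

lemma mem_levCocycles₂_iff (f : G × G → M) :
    f ∈ levCocycles₂ 𝒯 M ↔ f ∈ cocycles₂ M ∧ IsLevel₂ 𝒯 f := Iff.rfl

lemma mem_levCoboundaries₂_iff (f : G × G → M) :
    f ∈ levCoboundaries₂ 𝒯 M ↔ ∃ x : G → M, IsLevel₁ 𝒯 x ∧ (d₁₂ M).hom x = f := by
  simp only [levCoboundaries₂, Submodule.mem_map, mem_levCochains₁_iff]

/-- `H²_lev(G, M)`: level 2-cocycles modulo `d` of level 1-cochains
(mirror of the prelude's `continuousH2S` / `continuousH2`). -/
abbrev levH2 : Type :=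
  ↥(levCocycles₂ 𝒯 M) ⧸ (levCoboundaries₂ 𝒯 M).comap (levCocycles₂ 𝒯 M).subtype

/-- the projection from level 2-cocycles to `H²_lev` -/
abbrev levH2π : ↥(levCocycles₂ 𝒯 M) →ₗ[k] levH2 𝒯 M :=
  Submodule.mkQ _

lemma levH2π_eq_zero_iff (f : ↥(levCocycles₂ 𝒯 M)) :
    levH2π 𝒯 M f = 0 ↔ (f : G × G → M) ∈ levCoboundaries₂ 𝒯 M := by
  simp [Submodule.Quotient.mk_eq_zero, Submodule.mem_comap]

end LevelCohomology

section LevelMap

variable {k : Type} [CommRing k] {G H : Type} [Group G] [Group H]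
  (𝒯G : Tower G) (𝒯H : Tower H) (f : H →* G)
  (hf : ∀ U ∈ 𝒯G.lev, U.comap f ∈ 𝒯H.lev)

include hf in
lemma IsLevel₁.precomp {X : Type*} {x : G → X} (hx : IsLevel₁ 𝒯G x) : IsLevel₁ 𝒯H (x ∘ f) := by
  obtain ⟨U, hU, h⟩ := hx
  refine ⟨U.comap f, hf U hU, fun g s hs => ?_⟩
  simp only [Function.comp_apply, map_mul]
  exact h (f g) (f s) hs

include hf in
lemma IsLevel₂.precomp {X : Type*} {x : G × G → X} (hx : IsLevel₂ 𝒯G x) :
    IsLevel₂ 𝒯H (x ∘ Prod.map f f) := by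
  obtain ⟨U, hU, h⟩ := hx
  refine ⟨U.comap f, hf U hU, fun g g' s s' hs hs' => ?_⟩
  simp only [Function.comp_apply, Prod.map_apply, map_mul]
  exact h (f g) (f g') (f s) (f s') hs hs'

variable (A : Rep.{0} k G)

/-- restriction of level 2-cocycles along `f : H → G` (with the same coefficients) -/
def levCocycles₂Res : ↥(levCocycles₂ 𝒯G A) →ₗ[k] ↥(levCocycles₂ 𝒯H (Rep.res f A)) :=
  (cochainsPullPush₂ f (LinearMap.id : A →ₗ[k] Rep.res f A)).restrict fun _ hx =>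
    ⟨cochainsPullPush₂_mem_cocycles₂ f _ (fun _ _ => rfl) hx.1,
      ((IsLevel₂.precomp 𝒯G 𝒯H f hf hx.2).comp _ :)⟩

/-- restriction `H²_lev(G, A) → H²_lev(H, A)` along `f : H → G`
(mirror of the prelude's `locRes₂S`). -/
def levH2Res : levH2 𝒯G A →ₗ[k] levH2 𝒯H (Rep.res f A) :=
  Submodule.mapQ _ _ (levCocycles₂Res 𝒯G 𝒯H f hf A) fun x hx => by
    obtain ⟨y, hy, hyx⟩ := (mem_levCoboundaries₂_iff 𝒯G A _).1 hx
    refine (mem_levCoboundaries₂_iff 𝒯H (Rep.res f A) _).2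
      ⟨cochainsPullPush₁ f (LinearMap.id : A →ₗ[k] Rep.res f A) y,
        ((IsLevel₁.precomp 𝒯G 𝒯H f hf hy).comp _ :), ?_⟩
    rw [← cochainsPullPush₂_d₁₂ f _ (fun _ _ => rfl) y, hyx]
    rfl

end LevelMap

/-! ### The semilocal (level-coinduced) module -/

section Semilocal

variable {G : Type} [Group G] (𝒯 : Tower G) {ι : Type} {Gloc : ι → Type} [∀ v, Group (Gloc v)]
  (r : ∀ v, Gloc v →* G) (Jloc : ∀ v, Rep.{0} ℤ (Gloc v))

/-- The underlying group of `J = ∏_v coInd_{G_v}^G J_v`: families of functions `f v : G → J_v`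
with `f v (r d * g) = d • f v g`, right-invariant under some member of the tower. -/
def semilocalSub : AddSubgroup (∀ v, G → (Jloc v).V) where
  carrier := {f | ∀ v, (∀ (d : Gloc v) (g : G), f v (r v d * g) = (Jloc v).ρ d (f v g)) ∧
    IsLevel₁ 𝒯 (f v)}
  add_mem' := fun {f f'} hf hf' v =>
    ⟨fun d g => by simp [(hf v).1 d g, (hf' v).1 d g], (hf v).2.add (hf' v).2⟩
  zero_mem' := fun v => ⟨fun d g => by simp, isLevel₁_const 𝒯 (0 : (Jloc v).V)⟩
  neg_mem' := fun {f} hf v =>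
    ⟨fun d g => by simp [(hf v).1 d g], ((hf v).2.comp (fun x => -x) :)⟩

/-- `G` acts on `J` by right translation: `(σ f) v g = f v (g σ)`. -/
def semilocalRho : Representation ℤ G (semilocalSub 𝒯 r Jloc) where
  toFun σ :=
    { toFun := fun f => ⟨fun v g => f.1 v (g * σ), fun v =>
        ⟨fun d g => by
            show f.1 v (r v d * g * σ) = (Jloc v).ρ d (f.1 v (g * σ))
            rw [mul_assoc]
            exact (f.2 v).1 d (g * σ),
          (f.2 v).2.rightTranslate σ⟩⟩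
      map_add' := fun f f' => rfl
      map_smul' := fun n f => rfl }
  map_one' := by
    ext f
    simp
  map_mul' σ τ := by
    ext f
    simp [mul_assoc]

/-- The semilocal module `J = ∏_v coInd_{G_v}^G J_v` as a representation of `G`. -/
noncomputable def semilocal : Rep.{0} ℤ G := Rep.of (semilocalRho 𝒯 r Jloc)

end Semilocal

/-! ### The abstract datum -/

section Datum

variable (p : ℕ) (G : Type) [Group G] (ι : Type) (Gloc : ι → Type) [∀ v, Group (Gloc v)]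

/-- **The abstract arithmetic datum** ("`p`-class formation with local data").

Concrete instance (built by PT-B from the results of PT-L, PT-G1/G2/G3, PT-X):
`G = G_ℚ`, `𝒯 = {Gal(ℚ̄/F) | F unramified outside S}`, `ι = S`, `Gloc q = Gal(ℚ̄_q/ℚ_q)`,
`r q = localGaloisToGlobal q`, `𝒯loc q = {r⁻¹ Gal(ℚ̄/F) | F/ℚ finite}`, `χ = cycloChar p`,
`E = 𝒪_{ℚ_S,S}ˣ` (the `S`-units of `ℚ_S`), `Jloc q = (ℚ_q·ι(ℚ̄))ˣ`, `C = colim_L C_S(L)`
(the `S`-idèle class module, without archimedean components). -/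
structure PTDatum where
  /-- the global tower -/
  𝒯 : Tower G
  /-- local-to-global homomorphisms -/
  r : ∀ v, Gloc v →* G
  /-- the local towers -/
  𝒯loc : ∀ v, Tower (Gloc v)
  comap_mem : ∀ v, ∀ U ∈ 𝒯.lev, (U.comap (r v)) ∈ (𝒯loc v).lev
  /-- the mod `p` cyclotomic character -/
  χ : G →* (ZMod p)ˣ
  χ_level : ∃ U ∈ 𝒯.lev, ∀ s ∈ U, χ s = 1
  /-- the global units -/
  E : Rep.{0} ℤ G
  /-- the class module -/
  C : Rep.{0} ℤ G
  /-- the local multiplicative groups -/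
  Jloc : ∀ v, Rep.{0} ℤ (Gloc v)
  E_discrete : ∀ e : E.V, ∃ U ∈ 𝒯.lev, ∀ s ∈ U, E.ρ s e = e
  C_discrete : ∀ c : C.V, ∃ U ∈ 𝒯.lev, ∀ s ∈ U, C.ρ s c = c
  Jloc_discrete : ∀ (v : ι) (x : (Jloc v).V), ∃ V ∈ (𝒯loc v).lev, ∀ s ∈ V, (Jloc v).ρ s x = x
  /-- the local embeddings `E → J_v` -/
  j : ∀ v, Rep.res (r v) E ⟶ Jloc v
  j_injective : ∀ v, Function.Injective (j v).hom
  /-- the diagonal embedding `E → J` -/
  i : E ⟶ semilocal 𝒯 r Jloc
  i_apply : ∀ (e : E.V) (v : ι) (g : G), (i.hom e).1 v g = (j v).hom (E.ρ g e)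
  i_injective : Function.Injective i.hom
  /-- the projection `J → C` -/
  π : semilocal 𝒯 r Jloc ⟶ C
  /-- `E = ker (J → C)` -/
  exact : ∀ x : (semilocal 𝒯 r Jloc).V, π.hom x = 0 ↔ ∃ e : E.V, i.hom e = x
  /-- `J → C` is surjective (in the instance `C = J / E`, see NOTES/PT-instance.md) -/
  π_surj : Function.Surjective π.hom
  /-- a primitive `p`-th root of unity (written additively) -/
  ζ : E.V
  ζ_ne : ζ ≠ 0
  ζ_tors : p • ζ = 0
  ζ_gen : ∀ e : E.V, p • e = 0 → ∃ n : ℕ, e = n • ζ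
  ζ_char : ∀ g : G, E.ρ g ζ = ((χ g : ZMod p).val) • ζ
  /-- (E-div) `E` is `p`-divisible -/
  E_div : ∀ e : E.V, ∃ e' : E.V, p • e' = e
  /-- (J-div) `J_v` is `p`-divisible with `p`-torsion `μ_p` -/
  J_div : ∀ (v : ι) (x : (Jloc v).V), ∃ y : (Jloc v).V, p • y = x
  J_tors : ∀ (v : ι) (x : (Jloc v).V), p • x = 0 → ∃ n : ℕ, x = n • (j v).hom ζ
  /-- (CM-glob) at every normal level the class module has a `p`-fundamental class -/
  cm_glob : ∀ (U : Subgroup G) [U.Normal], U ∈ 𝒯.lev →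
    ∃ u : H2 (C.quotientToInvariants U), IsPFundClass p (C.quotientToInvariants U) u
  /-- (CM-loc) the same for the local multiplicative groups -/
  cm_loc : ∀ (v : ι) (V : Subgroup (Gloc v)) [V.Normal], V ∈ (𝒯loc v).lev →
    ∃ u : H2 ((Jloc v).quotientToInvariants V), IsPFundClass p ((Jloc v).quotientToInvariants V) u
  /-- (H90-loc) Hilbert 90 for the local multiplicative groups, at every normal local level and
  for every subgroup of the finite quotient -/
  h90_loc : ∀ (v : ι) (V : Subgroup (Gloc v)) [V.Normal], V ∈ (𝒯loc v).lev →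
    ∀ H : Subgroup (Gloc v ⧸ V),
      Subsingleton (H1 (Rep.res H.subtype ((Jloc v).quotientToInvariants V)))
  /-- (exist) existence theorem mod `p`: below every level there are normal levels `U' ≤ U₁` with
  `N_{U₁/U'} (C^{U'}) ⊆ p • C^{U₁}`. -/
  exist : ∀ U ∈ 𝒯.lev, ∃ U₁ ∈ 𝒯.lev, ∃ U' ∈ 𝒯.lev, U₁ ≤ U ∧ U' ≤ U₁ ∧ U₁.Normal ∧ U'.Normal ∧
    ∀ c : C.V, (∀ s ∈ U', C.ρ s c = c) →
      ∃ c' : C.V, (∀ s ∈ U₁, C.ρ s c' = c') ∧
        p • c' = ∑ᶠ t : ↥U₁ ⧸ U'.subgroupOf U₁, C.ρ ((Quotient.out t : ↥U₁) : G) c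
  /-- (surv') local-to-global injectivity on `H²` (consequence of the reciprocity law):
  a `p`-primary level class in `H²(G, J)` which is supported at one place `v` and dies in
  `H²(G, C)` has trivial `v`-component. -/
  surv : ∀ (v : ι) (y : G × G → (semilocal 𝒯 r Jloc).V),
    y ∈ cocycles₂ (semilocal 𝒯 r Jloc) → IsLevel₂ 𝒯 y →
    (∀ v' : ι, v' ≠ v → ∀ g g' h : G, (y (g, g')).1 v' h = 0) →
    (∃ (k : ℕ) (t : G → (semilocal 𝒯 r Jloc).V), IsLevel₁ 𝒯 t ∧
      (d₁₂ (semilocal 𝒯 r Jloc)).hom t = (p ^ k) • y) →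
    (∃ t : G → C.V, IsLevel₁ 𝒯 t ∧ (d₁₂ C).hom t = fun gg => π.hom (y gg)) →
    ∃ t : Gloc v → (Jloc v).V, IsLevel₁ (𝒯loc v) t ∧
      (d₁₂ (Jloc v)).hom t = fun dd => (y (r v dd.1, r v dd.2)).1 v 1

variable {p G ι Gloc}

/-- The abstract `Ш¹`: level classes in `H¹(G, A)` which vanish in every (abstract) local `H¹`.
Mirror of the prelude's `sha₁`. -/
def PTDatum.shaOne (D : PTDatum p G ι Gloc) {k : Type} [Field k] (A : Rep.{0} k G) :
    Submodule k (H1 A) :=
  levH1 D.𝒯 A ⊓ LinearMap.ker (locTotal D.r A)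

/-- The total localisation map on `H²_lev`.  Mirror of the prelude's `locTotal₂S`. -/
def PTDatum.locTwo (D : PTDatum p G ι Gloc) {k : Type} [Field k] (A : Rep.{0} k G) :
    levH2 D.𝒯 A →ₗ[k] ∀ v, levH2 (D.𝒯loc v) (Rep.res (D.r v) A) :=
  LinearMap.pi fun v => levH2Res D.𝒯 (D.𝒯loc v) (D.r v) (D.comap_mem v) A

/-- The abstract `Ш²`.  Mirror of the prelude's `sha₂`. -/
def PTDatum.shaTwo (D : PTDatum p G ι Gloc) {k : Type} [Field k] (A : Rep.{0} k G) :
    Submodule k (levH2 D.𝒯 A) :=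
  LinearMap.ker (D.locTwo A)

end Datum

/-- **The abstract Poitou–Tate theorem** (target of PT-F): for a datum `D` and a finite-dimensional
`𝔽_p`-representation `A` of `G` which is trivial on some level, there is a perfect pairing
`Ш¹(A*(1)) × Ш²(A) → 𝔽_p`. -/
def StmtPTF : Prop :=
  ∀ (p : ℕ) [Fact p.Prime] (G : Type) [Group G] (ι : Type) [Fintype ι] (Gloc : ι → Type)
    [∀ v, Group (Gloc v)] (D : PTDatum p G ι Gloc)
    (A : Rep.{0} (ZMod p) G) [FiniteDimensional (ZMod p) A],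
    (∃ U ∈ D.𝒯.lev, ∀ s ∈ U, A.ρ s = 1) →
    ∃ B : D.shaOne (A.dualTwist D.χ) →ₗ[ZMod p] D.shaTwo A →ₗ[ZMod p] ZMod p,
      (∀ y, (∀ x, B y x = 0) → y = 0) ∧ (∀ x, (∀ y, B y x = 0) → x = 0)

end Fermat.Agent.PT

end
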